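import Fermat.Agent.Grothendieck.SignCorrelation

/-!
# Krivine's vectors

From unit vectors `u i, v j` one builds unit vectors whose inner products are `sin (c ⟪u i, v j⟫)`,
where `sinh c = 1`; rounding them by a Gaussian vector gives Grothendieck's inequality.
-/

set_option autoImplicit false

noncomputable section

namespace FA.Grothendieck

open MeasureTheory ProbabilityTheory Real Finset
open scoped RealInnerProductSpace

variable {E : Type*} [NormedAddCommGroup E] [InnerProductSpace ℝ E]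

/-- Entrywise powers of a Gram matrix are positive semidefinite. -/
lemma gram_pow_nonneg {ι : Type*} [Fintype ι] (x : ι → E) (p : ℕ) (w : ι → ℝ) :
    0 ≤ ∑ a, ∑ b, w a * w b * ⟪x a, x b⟫ ^ p := by
  classical
  have : FiniteDimensional ℝ (Submodule.span ℝ (Set.range x)) :=
    FiniteDimensional.span_of_finite ℝ (Set.finite_range x)
  let B := stdOrthonormalBasis ℝ (Submodule.span ℝ (Set.range x))
  let y : ι → Submodule.span ℝ (Set.range x) := fun a => ⟨x a, Submodule.subset_span ⟨a, rfl⟩⟩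
  let co : ι → Fin _ → ℝ := fun a l => ⟪y a, B l⟫
  have hco : ∀ a b, ⟪x a, x b⟫ = ∑ l, co a l * co b l := fun a b => by
    rw [show ⟪x a, x b⟫ = ⟪y a, y b⟫ from (Submodule.coe_inner _ (y a) (y b)).symm,
      ← B.sum_inner_mul_inner (y a) (y b)]
    simp only [co, real_inner_comm (y b)]
  have : ∑ a, ∑ b, w a * w b * ⟪x a, x b⟫ ^ p =
      ∑ f : Fin p → Fin _, (∑ a, w a * ∏ l, co a (f l)) ^ 2 := by
    calc ∑ a, ∑ b, w a * w b * ⟪x a, x b⟫ ^ p
        = ∑ a, ∑ b, ∑ f : Fin p → Fin _,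
            (w a * ∏ l, co a (f l)) * (w b * ∏ l, co b (f l)) := by
          refine sum_congr rfl fun a _ => sum_congr rfl fun b _ => ?_
          rw [hco, Fintype.sum_pow, mul_sum]
          exact sum_congr rfl fun f _ => by rw [prod_mul_distrib]; ring
      _ = ∑ f : Fin p → Fin _, ∑ a, ∑ b,
            (w a * ∏ l, co a (f l)) * (w b * ∏ l, co b (f l)) := by
          rw [sum_congr rfl fun a _ => sum_comm (f := fun b f => _), sum_comm]
      _ = _ := sum_congr rfl fun f _ => by rw [sq, sum_mul_sum]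
  rw [this]
  exact sum_nonneg fun f _ => sq_nonneg _

variable {ι κ : Type*}

/-- The coefficient of Krivine's tensor power. -/
def coef (k : ℕ) : ℝ := arsinh 1 ^ (2 * k + 1) / ((2 * k + 1).factorial : ℝ)

lemma coef_nonneg (k : ℕ) : 0 ≤ coef k :=
  div_nonneg (pow_nonneg (arsinh_nonneg_iff.2 zero_le_one) _) (Nat.cast_nonneg _)

/-- The sign of a side. -/
def side : ι ⊕ κ → ℝ := Sum.elim (fun _ => -1) fun _ => 1

/-- The inner products of Krivine's vectors. -/
def krivineGram (x : ι ⊕ κ → E) (a b : ι ⊕ κ) : ℝ :=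
  if side a * side b = 1 then sinh (arsinh 1 * ⟪x a, x b⟫) else sin (arsinh 1 * ⟪x a, x b⟫)

lemma hasSum_krivineGram (x : ι ⊕ κ → E) (a b : ι ⊕ κ) :
    HasSum (fun k => coef k * (side a ^ k * side b ^ k * ⟪x a, x b⟫ ^ (2 * k + 1)))
      (krivineGram x a b) := by
  have hs : side a * side b = 1 ∨ side a * side b = -1 := by
    rcases a with _ | _ <;> rcases b with _ | _ <;> simp [side]
  unfold krivineGram
  rcases hs with h | h
  · rw [if_pos h]
    have h1 := Real.hasSum_sinh (arsinh 1 * ⟪x a, x b⟫)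
    refine h1.congr_fun fun k => ?_
    rw [coef, ← mul_pow, h, one_pow, one_mul, mul_pow]
    ring
  · rw [if_neg (by rw [h]; norm_num)]
    have h1 := Real.hasSum_sin (arsinh 1 * ⟪x a, x b⟫)
    refine h1.congr_fun fun k => ?_
    rw [coef, ← mul_pow (side a), h, mul_pow (arsinh 1)]
    ring

lemma arsinh_one_pos : 0 < arsinh 1 := by
  rw [← sinh_lt_sinh, sinh_zero, sinh_arsinh]
  exact zero_lt_one

lemma arsinh_one_le : arsinh 1 ≤ 1 := by
  rw [← sinh_le_sinh, sinh_arsinh]
  exact self_le_sinh_iff.2 zero_le_one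

lemma posSemidef_krivineGram [Fintype ι] [Fintype κ] (x : ι ⊕ κ → E) :
    (Matrix.of (krivineGram x)).PosSemidef := by
  refine Matrix.PosSemidef.of_dotProduct_mulVec_nonneg (Matrix.IsHermitian.ext fun a b => ?_)
    fun z => ?_
  · simp [krivineGram, mul_comm (side b), real_inner_comm (x a) (x b)]
  · have h := hasSum_sum (s := (univ : Finset (ι ⊕ κ))) fun a _ =>
      hasSum_sum (s := (univ : Finset (ι ⊕ κ))) fun b _ =>
        (hasSum_krivineGram x a b).mul_left (z a * z b)
    refine le_of_le_of_eq (h.nonneg fun k => ?_) ?_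
    · have h0 := mul_nonneg (coef_nonneg k)
        (gram_pow_nonneg x (2 * k + 1) fun a => z a * side a ^ k)
      refine le_of_le_of_eq h0 ?_
      simp only [mul_sum]
      exact sum_congr rfl fun a _ => sum_congr rfl fun b _ => by ring
    · simp only [dotProduct, Matrix.mulVec, star_trivial, Matrix.of_apply, mul_sum]
      exact sum_congr rfl fun a _ => sum_congr rfl fun b _ => by ring

/-- **Krivine's lemma**: unit vectors with prescribed inner products. -/
theorem exists_krivine_vectors [Fintype ι] [Fintype κ] (x : ι ⊕ κ → E) (hx : ∀ a, ‖x a‖ ≤ 1) :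
    ∃ (d : ℕ) (W : ι ⊕ κ → EuclideanSpace ℝ (Fin d ⊕ Fin 2)), (∀ a, ‖W a‖ = 1) ∧
      ∀ i j, ⟪W (Sum.inl i), W (Sum.inr j)⟫ = sin (arsinh 1 * ⟪x (Sum.inl i), x (Sum.inr j)⟫) := by
  classical
  have hdiag : ∀ a, krivineGram x a a ≤ 1 := by
    intro a
    have hs : side a * side a = 1 := by rcases a with _ | _ <;> simp [side]
    rw [krivineGram, if_pos hs, real_inner_self_eq_norm_sq]
    conv_rhs => rw [← sinh_arsinh 1]
    rw [sinh_le_sinh]
    exact mul_le_of_le_one_right arsinh_one_pos.le (pow_le_one₀ (norm_nonneg _) (hx a))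
  have hM : (Matrix.of (krivineGram x) +
      Matrix.diagonal fun a => 1 - krivineGram x a a).PosSemidef :=
    (posSemidef_krivineGram x).add (Matrix.PosSemidef.diagonal fun a => sub_nonneg.2 (hdiag a))
  obtain ⟨d, v, hv⟩ := Matrix.posSemidef_iff_eq_sum_vecMulVec.1 hM
  let W : ι ⊕ κ → EuclideanSpace ℝ (Fin d ⊕ Fin 2) := fun a =>
    WithLp.toLp 2 (Sum.elim (fun l => v l a) fun _ => 0)
  have hW : ∀ a b, ⟪W a, W b⟫ = krivineGram x a b +
      Matrix.diagonal (fun a => 1 - krivineGram x a a) a b := by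
    intro a b
    have := congrFun (congrFun hv a) b
    simp only [Matrix.add_apply, Matrix.of_apply, Matrix.sum_apply, Matrix.vecMulVec_apply,
      star_trivial] at this
    rw [this]
    simp [W, PiLp.inner_apply, Fintype.sum_sum_type, mul_comm]
  refine ⟨d, W, fun a => ?_, fun i j => ?_⟩
  · have := hW a a
    rw [real_inner_self_eq_norm_sq, Matrix.diagonal_apply_eq, add_sub_cancel] at this
    exact (sq_eq_one_iff.1 this).resolve_right fun h => by linarith [norm_nonneg (W a)]
  · rw [hW, Matrix.diagonal_apply_ne _ Sum.inl_ne_inr, add_zero, krivineGram,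
      if_neg (by norm_num [side])]

/-- **Grothendieck's inequality** with Krivine's constant. -/
theorem grothendieck [Fintype ι] [Fintype κ] (A : ι → κ → ℝ) {C : ℝ}
    (hA : ∀ (s : ι → ℝ) (t : κ → ℝ), (∀ i, s i = 1 ∨ s i = -1) → (∀ j, t j = 1 ∨ t j = -1) →
      |∑ i, ∑ j, A i j * (s i * t j)| ≤ C)
    (u : ι → E) (v : κ → E) (hu : ∀ i, ‖u i‖ ≤ 1) (hv : ∀ j, ‖v j‖ ≤ 1) :
    |∑ i, ∑ j, A i j * ⟪u i, v j⟫| ≤ π / (2 * arsinh 1) * C := by
  obtain ⟨d, W, hW1, hW⟩ := exists_krivine_vectors (Sum.elim u v) (by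
    rintro (i | j)
    · exact hu i
    · exact hv j)
  let X := EuclideanSpace ℝ (Fin d ⊕ Fin 2)
  have hdim : 2 ≤ Module.finrank ℝ X := by simp [X]
  have hc := arsinh_one_pos
  set U : ι → X := fun i => W (Sum.inl i)
  set V : κ → X := fun j => W (Sum.inr j)
  have hint : ∀ i j, Integrable (fun g => A i j * (sgn ⟪U i, g⟫ * sgn ⟪V j, g⟫)) (stdGaussian X) :=
    fun i j => (Integrable.of_bound (Measurable.aestronglyMeasurable (by fun_prop)) 1
      (Filter.Eventually.of_forall fun g => by simp [abs_sgn])).const_mul _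
  have hkey : ∀ i j, ∫ g, sgn ⟪U i, g⟫ * sgn ⟪V j, g⟫ ∂(stdGaussian X) =
      2 / π * (arsinh 1 * ⟪u i, v j⟫) := by
    intro i j
    rw [integral_sgn_mul_sgn (hW1 _) (hW1 _) hdim, hW]
    simp only [Sum.elim_inl, Sum.elim_inr]
    have h1 : |⟪u i, v j⟫| ≤ 1 := (abs_real_inner_le_norm _ _).trans
      (mul_le_one₀ (hu i) (norm_nonneg _) (hv j))
    have h2 : |arsinh 1 * ⟪u i, v j⟫| ≤ 1 := by
      rw [abs_mul, abs_of_pos hc]
      exact mul_le_one₀ arsinh_one_le (abs_nonneg _) h1
    rw [abs_le] at h2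
    rw [arcsin_sin (by linarith [pi_gt_three]) (by linarith [pi_gt_three])]
  have hI : ∫ g, ∑ i, ∑ j, A i j * (sgn ⟪U i, g⟫ * sgn ⟪V j, g⟫) ∂(stdGaussian X) =
      2 * arsinh 1 / π * ∑ i, ∑ j, A i j * ⟪u i, v j⟫ := by
    rw [integral_finsetSum _ fun i _ => integrable_finsetSum _ fun j _ => hint i j, mul_sum]
    refine sum_congr rfl fun i _ => ?_
    rw [integral_finsetSum _ fun j _ => hint i j, mul_sum]
    refine sum_congr rfl fun j _ => ?_
    rw [integral_const_mul, hkey]
    ring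
  have hbound := norm_integral_le_of_norm_le_const (μ := stdGaussian X)
    (f := fun g => ∑ i, ∑ j, A i j * (sgn ⟪U i, g⟫ * sgn ⟪V j, g⟫))
    (Filter.Eventually.of_forall fun g =>
      (Real.norm_eq_abs _).trans_le (hA _ _ (fun i => sgn_cases _) fun j => sgn_cases _))
  rw [Real.norm_eq_abs, hI, measureReal_def, measure_univ, ENNReal.toReal_one, mul_one, abs_mul,
    abs_of_pos (by positivity : (0 : ℝ) < 2 * arsinh 1 / π)] at hbound
  rw [div_mul_eq_mul_div, le_div_iff₀ (by positivity)]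
  calc |∑ i, ∑ j, A i j * ⟪u i, v j⟫| * (2 * arsinh 1)
      = π * (2 * arsinh 1 / π * |∑ i, ∑ j, A i j * ⟪u i, v j⟫|) := by field_simp
    _ ≤ π * C := mul_le_mul_of_nonneg_left hbound pi_pos.le

end FA.Grothendieck
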