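import Mathlib

/-!
# The correlation of Gaussian signs

For unit vectors `U, V` of a space of dimension at least two, the signs of a standard Gaussian
vector against `U` and `V` have mean product `(2 / π) arcsin ⟪U, V⟫`.
-/

set_option autoImplicit false

noncomputable section

namespace FA.Grothendieck

open MeasureTheory ProbabilityTheory Real
open scoped RealInnerProductSpace

/-- The sign, taken to be `1` at zero. -/
def sgn (x : ℝ) : ℝ := if 0 ≤ x then 1 else -1

lemma sgn_cases (x : ℝ) : sgn x = 1 ∨ sgn x = -1 := by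
  unfold sgn
  split_ifs <;> simp

lemma abs_sgn (x : ℝ) : |sgn x| = 1 := by
  rcases sgn_cases x with h | h <;> simp [h]

@[fun_prop]
lemma measurable_sgn : Measurable sgn :=
  Measurable.ite measurableSet_Ici measurable_const measurable_const

lemma sgn_mul_pos {r : ℝ} (hr : 0 < r) (x : ℝ) : sgn (r * x) = sgn x := by
  simp [sgn, mul_nonneg_iff_of_pos_left hr]

/-- The product of the signs of two cosines. -/
def cosSigns (φ θ : ℝ) : ℝ := sgn (Real.cos θ) * sgn (Real.cos (θ - φ))

lemma measurable_cosSigns (φ : ℝ) : Measurable (cosSigns φ) := by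
  unfold cosSigns
  fun_prop

lemma intervalIntegrable_cosSigns (φ a b : ℝ) : IntervalIntegrable (cosSigns φ) volume a b :=
  (intervalIntegrable_const (c := (1 : ℝ))).mono_fun (measurable_cosSigns φ).aestronglyMeasurable
    (Filter.Eventually.of_forall fun θ => by simp [cosSigns, abs_sgn])

lemma cos_neg_of_mem {x : ℝ} (h1 : π / 2 < x) (h2 : x < 3 * π / 2) : Real.cos x < 0 :=
  Real.cos_neg_of_pi_div_two_lt_of_lt h1 (by linarith)

lemma integral_piece {φ a b c : ℝ} (hab : a ≤ b)
    (h : ∀ θ, a < θ → θ < b → cosSigns φ θ = c) : ∫ θ in a..b, cosSigns φ θ = c * (b - a) := by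
  rw [intervalIntegral.integral_of_le hab, integral_Ioc_eq_integral_Ioo,
    setIntegral_congr_fun measurableSet_Ioo (g := fun _ => c) fun θ hθ => h θ hθ.1 hθ.2,
    setIntegral_const, measureReal_def, Real.volume_Ioo, ENNReal.toReal_ofReal (by linarith),
    smul_eq_mul, mul_comm]

lemma integral_cosSigns {φ : ℝ} (h0 : 0 ≤ φ) (h1 : φ ≤ π) :
    ∫ θ in -π..π, cosSigns φ θ = 2 * π - 4 * φ := by
  have hper : Function.Periodic (cosSigns φ) (2 * π) := fun θ => by
    simp only [cosSigns, Real.cos_add_two_pi, show θ + 2 * π - φ = θ - φ + 2 * π by ring]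
  have hshift := hper.intervalIntegral_add_eq (-π) (-(π / 2))
  rw [show -π + 2 * π = π by ring, show -(π / 2) + 2 * π = 3 * π / 2 by ring] at hshift
  have pos : ∀ x, -(π / 2) < x → x < π / 2 → 0 ≤ Real.cos x := fun x h h' =>
    Real.cos_nonneg_of_mem_Icc ⟨h.le, h'.le⟩
  have pos' : ∀ x, 3 * π / 2 < x → x < 5 * π / 2 → 0 ≤ Real.cos x := fun x h h' => by
    rw [← Real.cos_sub_two_pi]
    exact pos _ (by linarith) (by linarith)
  have p1 := integral_piece (φ := φ) (c := -1) (a := -(π / 2)) (b := φ - π / 2) (by linarith)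
    fun θ ha hb => by
      have h : Real.cos (θ - φ) < 0 := by
        rw [← Real.cos_neg]
        exact cos_neg_of_mem (by linarith) (by linarith)
      simp [cosSigns, sgn, pos θ ha (by linarith), not_le.2 h]
  have p2 := integral_piece (φ := φ) (c := 1) (a := φ - π / 2) (b := π / 2) (by linarith)
    fun θ ha hb => by
      simp [cosSigns, sgn, pos θ (by linarith) hb, pos (θ - φ) (by linarith) (by linarith)]
  have p3 := integral_piece (φ := φ) (c := -1) (a := π / 2) (b := φ + π / 2) (by linarith)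
    fun θ ha hb => by
      simp [cosSigns, sgn, pos (θ - φ) (by linarith) (by linarith),
        not_le.2 (cos_neg_of_mem ha (by linarith))]
  have p4 := integral_piece (φ := φ) (c := 1) (a := φ + π / 2) (b := 3 * π / 2) (by linarith)
    fun θ ha hb => by
      simp [cosSigns, sgn, not_le.2 (cos_neg_of_mem (x := θ) (by linarith) hb),
        not_le.2 (cos_neg_of_mem (x := θ - φ) (by linarith) (by linarith))]
  rw [hshift, ← intervalIntegral.integral_add_adjacent_intervals (b := φ + π / 2)
      (intervalIntegrable_cosSigns _ _ _) (intervalIntegrable_cosSigns _ _ _),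
    ← intervalIntegral.integral_add_adjacent_intervals (b := π / 2)
      (intervalIntegrable_cosSigns _ _ _) (intervalIntegrable_cosSigns _ _ _),
    ← intervalIntegral.integral_add_adjacent_intervals (b := φ - π / 2)
      (intervalIntegrable_cosSigns _ _ _) (intervalIntegrable_cosSigns _ _ _), p1, p2, p3, p4]
  ring

lemma integral_radial : ∫ r in Set.Ioi (0 : ℝ), r * exp (-r ^ 2 / 2) = 1 := by
  have h := integral_Ioi_of_hasDerivAt_of_nonneg' (g := fun r : ℝ => -exp (-r ^ 2 / 2))
    (g' := fun r => r * exp (-r ^ 2 / 2)) (a := 0) (l := 0) (fun x _ => ?_)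
    (fun x hx => mul_nonneg (le_of_lt hx) (exp_pos _).le) ?_
  · simpa using h
  · have := ((hasDerivAt_pow 2 x).neg.div_const 2).exp.neg
    exact this.congr_deriv (by simp; ring)
  · rw [← neg_zero]
    refine (Real.tendsto_exp_atBot.comp ?_).neg
    exact (Filter.tendsto_neg_atTop_atBot.comp (Filter.tendsto_pow_atTop two_ne_zero)).atBot_div_const
      two_pos

/-- The planar computation. -/
lemma integral_signs_plane {φ : ℝ} (h0 : 0 ≤ φ) (h1 : φ ≤ π) :
    ∫ p, sgn p.1 * sgn (Real.cos φ * p.1 + Real.sin φ * p.2)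
      ∂((gaussianReal 0 1).prod (gaussianReal 0 1)) = 1 - 2 * φ / π := by
  set F : ℝ × ℝ → ℝ := fun p => sgn p.1 * sgn (Real.cos φ * p.1 + Real.sin φ * p.2) with hF
  have hFm : Measurable F := by fun_prop
  have hFb : ∀ p, |F p| = 1 := fun p => by simp [hF, abs_mul, abs_sgn]
  have hFint : Integrable F ((gaussianReal 0 1).prod (gaussianReal 0 1)) :=
    Integrable.of_bound hFm.aestronglyMeasurable 1
      (Filter.Eventually.of_forall fun p => by rw [Real.norm_eq_abs, hFb])
  set G : ℝ × ℝ → ℝ := fun p =>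
    gaussianPDFReal 0 1 p.1 * gaussianPDFReal 0 1 p.2 * F p with hG
  have hGint : Integrable G (volume : Measure (ℝ × ℝ)) :=
    ((integrable_gaussianPDFReal 0 1).mul_prod (integrable_gaussianPDFReal 0 1)).mul_bdd (c := 1)
      hFm.aestronglyMeasurable (Filter.Eventually.of_forall fun p => by rw [Real.norm_eq_abs, hFb])
  have h2pi : (√(2 * π))⁻¹ * (√(2 * π))⁻¹ = (2 * π)⁻¹ := by
    rw [← mul_inv, Real.mul_self_sqrt (by positivity)]
  calc ∫ p, F p ∂((gaussianReal 0 1).prod (gaussianReal 0 1))
      = ∫ x, ∫ y, G (x, y) := by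
        rw [integral_prod F hFint, integral_gaussianReal_eq_integral_smul one_ne_zero]
        refine integral_congr_ae (Filter.Eventually.of_forall fun x => ?_)
        simp only [smul_eq_mul]
        rw [integral_gaussianReal_eq_integral_smul one_ne_zero, ← integral_const_mul]
        refine integral_congr_ae (Filter.Eventually.of_forall fun y => ?_)
        simp [hG, mul_assoc]
    _ = ∫ p, G p := (integral_prod G hGint).symm
    _ = ∫ p in polarCoord.target, p.1 • G (polarCoord.symm p) :=
        (integral_comp_polarCoord_symm G).symm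
    _ = ∫ p in Set.Ioi (0 : ℝ) ×ˢ Set.Ioo (-π) π,
          (p.1 * exp (-p.1 ^ 2 / 2)) * ((2 * π)⁻¹ * cosSigns φ p.2) := by
        rw [polarCoord_target]
        refine setIntegral_congr_fun (measurableSet_Ioi.prod measurableSet_Ioo) fun p hp => ?_
        have hr : 0 < p.1 := hp.1
        have he : exp (-(p.1 * Real.cos p.2) ^ 2 / 2) * exp (-(p.1 * Real.sin p.2) ^ 2 / 2) =
            exp (-p.1 ^ 2 / 2) := by
          rw [← exp_add]
          congr 1
          linear_combination (-p.1 ^ 2 / 2) * Real.sin_sq_add_cos_sq p.2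
        simp only [polarCoord_symm_apply, hG, hF, gaussianPDFReal, smul_eq_mul, NNReal.coe_one,
          mul_one, sub_zero, cosSigns]
        rw [show Real.cos φ * (p.1 * Real.cos p.2) + Real.sin φ * (p.1 * Real.sin p.2) =
          p.1 * Real.cos (p.2 - φ) by rw [Real.cos_sub]; ring, sgn_mul_pos hr, sgn_mul_pos hr,
          ← he, ← h2pi]
        ring
    _ = (∫ r in Set.Ioi (0 : ℝ), r * exp (-r ^ 2 / 2)) *
          ∫ θ in Set.Ioo (-π) π, (2 * π)⁻¹ * cosSigns φ θ := by
        rw [Measure.volume_eq_prod]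
        exact setIntegral_prod_mul (fun r : ℝ => r * exp (-r ^ 2 / 2))
          (fun θ : ℝ => (2 * π)⁻¹ * cosSigns φ θ) _ _
    _ = 1 - 2 * φ / π := by
        rw [integral_radial, one_mul, integral_const_mul, ← integral_Ioc_eq_integral_Ioo,
          ← intervalIntegral.integral_of_le (by linarith [pi_pos]), integral_cosSigns h0 h1]
        field_simp
        ring

variable {E : Type*} [NormedAddCommGroup E] [InnerProductSpace ℝ E] [FiniteDimensional ℝ E]
  [MeasurableSpace E] [BorelSpace E]

/-- Two orthonormal coordinates of a standard Gaussian vector are standard Gaussian. -/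
lemma map_pair {a b : E} (ha : ‖a‖ = 1) (hb : ‖b‖ = 1) (hab : ⟪a, b⟫ = 0) :
    (stdGaussian E).map (fun g => WithLp.toLp 2 ![⟪a, g⟫, ⟪b, g⟫]) =
      stdGaussian (EuclideanSpace ℝ (Fin 2)) := by
  have hm : Measurable fun g : E => WithLp.toLp 2 ![⟪a, g⟫, ⟪b, g⟫] := by fun_prop
  refine Measure.ext_of_charFun (funext fun s => ?_)
  have hn : ‖s 0 • a + s 1 • b‖ = ‖s‖ := by
    rw [← sq_eq_sq₀ (norm_nonneg _) (norm_nonneg _), norm_add_sq_real, norm_smul, norm_smul, ha, hb,
      real_inner_smul_left, real_inner_smul_right, hab, EuclideanSpace.norm_sq_eq, Fin.sum_univ_two]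
    simp
  calc charFun ((stdGaussian E).map fun g => WithLp.toLp 2 ![⟪a, g⟫, ⟪b, g⟫]) s
      = charFun (stdGaussian E) (s 0 • a + s 1 • b) := by
        rw [charFun_apply, charFun_apply, integral_map hm.aemeasurable
          (Measurable.aestronglyMeasurable (by fun_prop))]
        refine integral_congr_ae (Filter.Eventually.of_forall fun g => ?_)
        have e : ⟪WithLp.toLp 2 ![⟪a, g⟫, ⟪b, g⟫], s⟫ = ⟪g, s 0 • a + s 1 • b⟫ := by
          rw [inner_add_right, real_inner_smul_right, real_inner_smul_right, real_inner_comm a g,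
            real_inner_comm b g]
          simp [PiLp.inner_apply, Fin.sum_univ_two, mul_comm]
        simp only [e]
    _ = _ := by rw [charFun_stdGaussian, charFun_stdGaussian, hn]

/-- The mean product of two Gaussian signs. -/
theorem integral_sgn_mul_sgn {U V : E} (hU : ‖U‖ = 1) (hV : ‖V‖ = 1)
    (hdim : 2 ≤ Module.finrank ℝ E) :
    ∫ g, sgn ⟪U, g⟫ * sgn ⟪V, g⟫ ∂(stdGaussian E) = 2 / π * arcsin ⟪U, V⟫ := by
  set ρ := ⟪U, V⟫ with hρ
  have hρ1 : ρ ∈ Set.Icc (-1 : ℝ) 1 := by
    have := abs_real_inner_le_norm U V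
    rw [hU, hV, one_mul, abs_le] at this
    exact this
  have hUU : ⟪U, U⟫ = 1 := by rw [real_inner_self_eq_norm_sq, hU, one_pow]
  have hUV' : ‖V - ρ • U‖ ^ 2 = 1 - ρ ^ 2 := by
    rw [norm_sub_sq_real, norm_smul, real_inner_smul_right, real_inner_comm U V, ← hρ, hV, hU,
      mul_one, Real.norm_eq_abs, sq_abs]
    ring
  obtain ⟨e, he1, he0, hdec⟩ : ∃ e : E, ‖e‖ = 1 ∧ ⟪U, e⟫ = 0 ∧
      V = ρ • U + √(1 - ρ ^ 2) • e := by
    by_cases hσ : √(1 - ρ ^ 2) = 0
    · obtain ⟨e, he, he'⟩ : ∃ e : E, e ≠ 0 ∧ ⟪U, e⟫ = 0 := by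
        have hbot : (Submodule.span ℝ {U})ᗮ ≠ ⊥ := by
          intro h
          have h1 := Submodule.finrank_add_finrank_orthogonal (Submodule.span ℝ ({U} : Set E))
          rw [h, finrank_bot, finrank_span_singleton (by rintro rfl; simp at hU)] at h1
          omega
        obtain ⟨e, hemem, he⟩ := Submodule.exists_mem_ne_zero_of_ne_bot hbot
        exact ⟨e, he, Submodule.mem_orthogonal_singleton_iff_inner_right.1 hemem⟩
      refine ⟨‖e‖⁻¹ • e, norm_smul_inv_norm he, by rw [real_inner_smul_right, he', mul_zero], ?_⟩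
      rw [hσ, zero_smul, add_zero, ← sub_eq_zero, ← norm_eq_zero, ← sq_eq_zero_iff, hUV']
      exact le_antisymm (Real.sqrt_eq_zero'.1 hσ) (by nlinarith [hρ1.1, hρ1.2])
    · refine ⟨(√(1 - ρ ^ 2))⁻¹ • (V - ρ • U), ?_, ?_, ?_⟩
      · rw [norm_smul, ← Real.sqrt_sq (norm_nonneg (V - ρ • U)), hUV', norm_inv, Real.norm_eq_abs,
          abs_of_nonneg (Real.sqrt_nonneg _), inv_mul_cancel₀ hσ]
      · rw [real_inner_smul_right, inner_sub_right, real_inner_smul_right, hUU, ← hρ]
        ring
      · rw [smul_smul, mul_inv_cancel₀ hσ, one_smul, add_sub_cancel]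
  have hpi : (gaussianReal 0 1).prod (gaussianReal 0 1) =
      (stdGaussian (EuclideanSpace ℝ (Fin 2))).map fun z => (z 0, z 1) := by
    rw [← map_pi_eq_stdGaussian (ι := Fin 2), Measure.map_map (by fun_prop) (by fun_prop),
      ← (measurePreserving_finTwoArrow (gaussianReal 0 1)).map_eq]
    rfl
  have hplane := integral_signs_plane (Real.arccos_nonneg ρ) (Real.arccos_le_pi ρ)
  rw [Real.cos_arccos hρ1.1 hρ1.2, Real.sin_arccos, hpi,
    integral_map (by fun_prop) (Measurable.aestronglyMeasurable (by fun_prop)),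
    ← map_pair hU he1 he0,
    integral_map (by fun_prop) (Measurable.aestronglyMeasurable (by fun_prop))] at hplane
  calc ∫ g, sgn ⟪U, g⟫ * sgn ⟪V, g⟫ ∂(stdGaussian E)
      = 1 - 2 * arccos ρ / π := by
        rw [← hplane]
        refine integral_congr_ae (Filter.Eventually.of_forall fun g => ?_)
        conv_lhs => rw [hdec]
        simp [inner_add_left, real_inner_smul_left]
    _ = 2 / π * arcsin ρ := by
        rw [arccos_eq_pi_div_two_sub_arcsin]
        field_simp
        ring

end FA.Grothendieck
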